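import Fermat.Agent.EC.Reducible.KernelDef
import Fermat.Agent.EC.Mult.Component

/-!
# Inertia at a semistable place acts trivially modulo the kernel of reduction

For an integral model `W` semistable at `p` and a `p`-torsion point `P`, every inertia element
`σ` at a place over `p` satisfies `σ P - P ∈ kernelAt W A`.  For `q ≠ p` inertia is unipotent.
-/

set_option autoImplicit false

noncomputable section

open WeierstrassCurve.Affine (Point)
open scoped WeierstrassCurve.Affine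

namespace Fermat.Agent.EC.Reducible

variable (W : WeierstrassCurve ℤ)

/-- **Inertia at `p` moves `p`-torsion inside the kernel of reduction** (semistable case). -/
theorem inertia_sub_mem_kernelAt (hΔ : W.Δ ≠ 0) {p : ℕ} (hp : p.Prime)
    (hss : (p : ℤ) ∣ W.Δ → ¬ (p : ℤ) ∣ W.c₄) (A : ValuationSubring (AlgebraicClosure ℚ))
    (hA : A.LiesOverPrime p) {σ : AlgebraicClosure ℚ ≃ₐ[ℚ] AlgebraicClosure ℚ}
    (hσ : σ ∈ A.inertiaSubgroupIn ℚ)
    {P : ((W.map (Int.castRingHom ℚ))⁄(AlgebraicClosure ℚ)).Point} (hP : p • P = 0) :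
    σ • P - P ∈ kernelAt W A := by
  rw [mem_kernelAt_iff]
  by_cases hd : (p : ℤ) ∣ W.Δ
  · exact Mult.smul_sub_eq_zero_or_not_mem hp hA hΔ hd (hss hd) hσ hP
  · have hΔb := specialFibre_Δ_ne_zero W A hp hA hd
    refine ((qbarModel W A).red_eq_zero_iff ((qbarModel W A).inE0_of_Δ_ne_zero hΔb _)).mp ?_
    rw [← (qbarModel W A).redHom_apply hΔb, map_sub, (qbarModel W A).redHom_apply hΔb,
      (qbarModel W A).redHom_apply hΔb, red_smul_of_mem_inertia W A hσ P, sub_self]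

/-- **Inertia at a semistable prime `q ∤ n` is unipotent on `n`-torsion.** -/
theorem inertia_smul_sub_fixed (hΔ : W.Δ ≠ 0) {q : ℕ} (hq : q.Prime)
    (hss : (q : ℤ) ∣ W.Δ → ¬ (q : ℤ) ∣ W.c₄) (A : ValuationSubring (AlgebraicClosure ℚ))
    (hA : A.LiesOverPrime q) {n : ℕ} (hn : ¬ q ∣ n)
    {σ τ : AlgebraicClosure ℚ ≃ₐ[ℚ] AlgebraicClosure ℚ} (hσ : σ ∈ A.inertiaSubgroupIn ℚ)
    (hτ : τ ∈ A.inertiaSubgroupIn ℚ)
    {P : ((W.map (Int.castRingHom ℚ))⁄(AlgebraicClosure ℚ)).Point} (hP : n • P = 0) :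
    τ • (σ • P - P) = σ • P - P := by
  by_cases hd : (q : ℤ) ∣ W.Δ
  · exact Mult.smul_sub_fixed_of_mult hq hA hΔ hd (hss hd) hn hσ hτ hP
  · rw [smul_eq_of_mem_inertia W A hq hA hd hσ hn hP, sub_self, smul_zero]

end Fermat.Agent.EC.Reducible
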