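import Fermat.Agent.EC.Reducible.KernelAtP
import Fermat.Agent.EC.Reducible.InertiaKernel
import Fermat.Agent.EC.Mult.Qbar
import Fermat.Agent.EC.Torsion.Rat
import Fermat.Agent.Galois.Minkowski
import Fermat.Prelude.Def_FreyPackage_GaloisRep

/-!
# Reducible mod `p` representations of semistable curves over `ℚ`

For a semistable integral model and an odd prime `p`, a Galois stable line of `E[p]` is either
fixed pointwise or has trivial Galois action on the quotient.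
-/

set_option autoImplicit false

noncomputable section

open WeierstrassCurve.Affine.Point
open WeierstrassCurve.Affine (Point)
open scoped WeierstrassCurve.Affine

namespace Fermat.Agent.EC.Reducible

local notation "Qb" => AlgebraicClosure ℚ

local instance : Algebra.IsAlgebraic ℚ Qb := AlgebraicClosure.isAlgebraic ℚ

/-- The `p`-torsion of `W` over `ℚ̄`. -/
abbrev Tors (W : WeierstrassCurve ℤ) (p : ℕ) : Submodule ℤ ((W.map (Int.castRingHom ℚ))⁄Qb).Point :=
  Submodule.torsionBy ℤ ((W.map (Int.castRingHom ℚ))⁄Qb).Point p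

variable (W : WeierstrassCurve ℤ) {p : ℕ}

/-- Galois elements fixing a submodule pointwise. -/
def fixSub (N : Submodule (ZMod p) (Tors W p)) : Subgroup (Qb ≃ₐ[ℚ] Qb) where
  carrier := {σ | ∀ x ∈ N, σ • x = x}
  one_mem' := fun x _ => one_smul _ x
  mul_mem' := fun {a b} ha hb x hx => by rw [mul_smul, hb x hx, ha x hx]
  inv_mem' := fun {a} ha x hx => by conv_lhs => rw [← ha x hx, inv_smul_smul]

/-- Galois elements acting trivially on the quotient by a stable submodule. -/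
def fixQuot (N : Submodule (ZMod p) (Tors W p)) (hN : IsGaloisStable ℚ N) :
    Subgroup (Qb ≃ₐ[ℚ] Qb) where
  carrier := {σ | ∀ x, σ • x - x ∈ N}
  one_mem' := fun x => by rw [one_smul, sub_self]; exact N.zero_mem
  mul_mem' := fun {a b} ha hb x => by
    have h : (a * b) • x - x = a • (b • x - x) + (a • x - x) := by
      rw [mul_smul, smul_sub]; abel
    rw [h]
    exact N.add_mem (hN a _ (hb x)) (ha x)
  inv_mem' := fun {a} ha x => by
    have h : a⁻¹ • x - x = -(a⁻¹ • (a • x - x)) := by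
      rw [smul_sub, inv_smul_smul]; abel
    rw [h]
    exact N.neg_mem (hN a⁻¹ _ (ha x))

variable {W}

theorem mem_fixSub {N : Submodule (ZMod p) (Tors W p)} {σ : Qb ≃ₐ[ℚ] Qb} :
    σ ∈ fixSub W N ↔ ∀ x ∈ N, σ • x = x := Iff.rfl

theorem mem_fixQuot {N : Submodule (ZMod p) (Tors W p)} {hN : IsGaloisStable ℚ N}
    {σ : Qb ≃ₐ[ℚ] Qb} : σ ∈ fixQuot W N hN ↔ ∀ x, σ • x - x ∈ N := Iff.rfl

theorem fixSub_normal {N : Submodule (ZMod p) (Tors W p)} (hN : IsGaloisStable ℚ N) :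
    (fixSub W N).Normal := by
  refine ⟨fun σ hσ τ x hx => ?_⟩
  rw [mul_smul, mul_smul, hσ _ (hN τ⁻¹ x hx), smul_inv_smul]

theorem fixQuot_normal {N : Submodule (ZMod p) (Tors W p)} (hN : IsGaloisStable ℚ N) :
    (fixQuot W N hN).Normal := by
  refine ⟨fun σ hσ τ x => ?_⟩
  have h := hN τ _ (hσ (τ⁻¹ • x))
  rwa [smul_sub, smul_inv_smul, ← mul_smul, ← mul_smul] at h

variable (W)

theorem isElliptic_rat (hΔ : W.Δ ≠ 0) : (W.map (Int.castRingHom ℚ)).IsElliptic := by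
  rw [WeierstrassCurve.isElliptic_iff, WeierstrassCurve.map_Δ, isUnit_iff_ne_zero, eq_intCast]
  exact Int.cast_ne_zero.mpr hΔ

variable {W}

theorem isOpen_of_fixes_torsion_le (hΔ : W.Δ ≠ 0) (hp : p ≠ 0) {H : Subgroup (Qb ≃ₐ[ℚ] Qb)}
    (hH : ∀ σ : Qb ≃ₐ[ℚ] Qb, (∀ x : (Tors W p), σ • x = x) → σ ∈ H) :
    IsOpen (H : Set (Qb ≃ₐ[ℚ] Qb)) := by
  have := isElliptic_rat W hΔ
  obtain ⟨L, hL, h⟩ := exists_finite_level_torsion (S := ℚ) (K := Qb)
    (W.map (Int.castRingHom ℚ)) hp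
  refine Subgroup.isOpen_of_openSubgroup H
    (U := ⟨L.fixingSubgroup, IntermediateField.fixingSubgroup_isOpen L⟩) fun σ hσ => ?_
  exact hH σ (h σ fun x hx => hσ ⟨x, hx⟩)

variable [hp : Fact p.Prime]

theorem finrank_torsion (hΔ : W.Δ ≠ 0) : Module.finrank (ZMod p) (Tors W p) = 2 :=
  haveI := isElliptic_rat W hΔ
  finrank_torsion_rat (W.map (Int.castRingHom ℚ)) p

theorem finiteDimensional_torsion (hΔ : W.Δ ≠ 0) : FiniteDimensional (ZMod p) (Tors W p) :=
  Module.finite_of_finrank_eq_succ (finrank_torsion hΔ)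

theorem finrank_line (hΔ : W.Δ ≠ 0) {N : Submodule (ZMod p) (Tors W p)} (hbot : N ≠ ⊥) (htop : N ≠ ⊤) :
    Module.finrank (ZMod p) N = 1 := by
  have := finiteDimensional_torsion (p := p) hΔ
  have h1 := Submodule.finrank_lt htop
  rw [finrank_torsion hΔ] at h1
  have h2 : Module.finrank (ZMod p) N ≠ 0 := fun h => hbot (Submodule.finrank_eq_zero.mp h)
  omega

theorem eq_or_inf_eq_bot (hΔ : W.Δ ≠ 0) {N M : Submodule (ZMod p) (Tors W p)}
    (hbot : N ≠ ⊥) (htop : N ≠ ⊤) (hM : M ≠ ⊤) : M = N ∨ N ⊓ M = ⊥ := by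
  have := finiteDimensional_torsion (p := p) hΔ
  by_cases h : N ⊓ M = ⊥
  · exact Or.inr h
  left
  have hle : N ≤ M := by
    refine le_trans (le_of_eq (b := N ⊓ M) ?_) inf_le_right
    refine (Submodule.eq_of_le_of_finrank_le (inf_le_left : N ⊓ M ≤ N) ?_).symm
    rw [finrank_line hΔ hbot htop]
    exact Nat.one_le_iff_ne_zero.mpr fun h0 => h (Submodule.finrank_eq_zero.mp h0)
  refine (Submodule.eq_of_le_of_finrank_le hle ?_).symm
  have hMbot : M ≠ ⊥ := fun h0 => hbot (le_bot_iff.mp (h0 ▸ hle))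
  rw [finrank_line hΔ hbot htop, finrank_line hΔ hMbot hM]

/-- An automorphism with `(σ - 1)² = 0` is trivial on a stable line and on its quotient. -/
theorem mem_fixSub_and_fixQuot_of_unipotent (hΔ : W.Δ ≠ 0) {N : Submodule (ZMod p) (Tors W p)}
    (hN : IsGaloisStable ℚ N) (hbot : N ≠ ⊥) (htop : N ≠ ⊤) {σ : Qb ≃ₐ[ℚ] Qb}
    (hu : ∀ x : (Tors W p), σ • (σ • x - x) = σ • x - x) :
    σ ∈ fixSub W N ∧ σ ∈ fixQuot W N hN := by
  have := finiteDimensional_torsion (p := p) hΔ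
  have hlin : ∀ (c : ZMod p) (y : (Tors W p)), σ • (c • y) = c • (σ • y) :=
    fun c y => map_smul (galoisRep (W.map (Int.castRingHom ℚ)) p σ) c y
  refine ⟨fun x hx => ?_, fun x => ?_⟩
  · by_contra hne
    have hy : σ • x - x ∈ N := N.sub_mem (hN σ x hx) hx
    have hy0 : (⟨_, hy⟩ : N) ≠ 0 := fun h => hne (sub_eq_zero.mp (congrArg Subtype.val h))
    obtain ⟨c, hc⟩ := exists_smul_eq_of_finrank_eq_one (finrank_line hΔ hbot htop) hy0 ⟨x, hx⟩
    have hc' : c • (σ • x - x) = x := congrArg Subtype.val hc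
    exact hne (by conv_lhs => rw [← hc', hlin, hu, hc'])
  · by_contra hne
    have hsup : N ⊔ Submodule.span (ZMod p) {σ • x - x} = ⊤ := by
      refine Submodule.eq_top_of_finrank_eq ?_
      have hlt : N < N ⊔ Submodule.span (ZMod p) {σ • x - x} := by
        refine lt_of_le_of_ne le_sup_left fun h => hne ?_
        rw [h]
        exact Submodule.mem_sup_right (Submodule.mem_span_singleton_self _)
      have h1 := Submodule.finrank_lt_finrank_of_lt hlt
      have h2 := Submodule.finrank_le (N ⊔ Submodule.span (ZMod p) {σ • x - x})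
      rw [finrank_line hΔ hbot htop] at h1
      rw [finrank_torsion hΔ] at h2 ⊢
      omega
    obtain ⟨n, hn, z, hz, hnz⟩ :=
      Submodule.mem_sup.mp (hsup ▸ Submodule.mem_top : x ∈ N ⊔ Submodule.span (ZMod p) {σ • x - x})
    obtain ⟨c, rfl⟩ := Submodule.mem_span_singleton.mp hz
    refine hne ?_
    have hσx : σ • x = σ • n + c • (σ • x - x) := by
      conv_lhs => rw [← hnz, smul_add, hlin, hu]
    have : σ • x - x = σ • n - n := by
      have e : σ • x - x = (σ • n + c • (σ • x - x)) - (n + c • (σ • x - x)) := by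
        rw [← hσx, hnz]
      rw [e]; abel
    rw [this]
    exact N.sub_mem (hN σ n hn) hn

variable (W) in
/-- The `p`-torsion reducing to the origin at `A`. -/
def kernelTors (A : ValuationSubring Qb) : Submodule (ZMod p) (Tors W p) :=
  AddSubgroup.toZModSubmodule p
    ((kernelAt W A).comap (Submodule.torsionBy ℤ
      ((W.map (Int.castRingHom ℚ))⁄Qb).Point p).subtype.toAddMonoidHom)

theorem coe_mem_kernelAt_iff (A : ValuationSubring Qb) (x : (Tors W p)) :
    x ∈ kernelTors W A ↔ (x : ((W.map (Int.castRingHom ℚ))⁄Qb).Point) ∈ kernelAt W A := Iff.rfl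

omit hp in
theorem nsmul_coe_eq_zero (x : (Tors W p)) :
    p • (x : ((W.map (Int.castRingHom ℚ))⁄Qb).Point) = 0 := by
  rw [← natCast_zsmul]
  exact (Submodule.mem_torsionBy_iff _ _).1 x.2

/-- The inertia dichotomy at a place over `p`. -/
theorem inertia_dichotomy (hΔ : W.Δ ≠ 0) (hp2 : p ≠ 2)
    (hss : (p : ℤ) ∣ W.Δ → ¬ (p : ℤ) ∣ W.c₄) (A : ValuationSubring Qb) (hA : A.LiesOverPrime p)
    {N : Submodule (ZMod p) (Tors W p)} (hN : IsGaloisStable ℚ N) (hbot : N ≠ ⊥) (htop : N ≠ ⊤) :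
    A.inertiaSubgroupIn ℚ ≤ fixSub W N ∨ A.inertiaSubgroupIn ℚ ≤ fixQuot W N hN := by
  have hM : kernelTors W A ≠ (⊤ : Submodule (ZMod p) (Tors W p)) := by
    obtain ⟨x, y, h, hP, hx⟩ :=
      exists_torsion_mem_of_stable_line W hΔ hp.out hp2 A hA N hN hbot htop
    intro htop'
    let P : (Tors W p) := ⟨.some x y h, (Submodule.mem_torsionBy_iff _ _).2 (by rwa [natCast_zsmul])⟩
    have hmem : P ∈ kernelTors W A := htop' ▸ Submodule.mem_top
    exact (some_mem_kernelAt_iff W A h).mp hmem hx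
  have hmove : ∀ σ ∈ A.inertiaSubgroupIn ℚ, ∀ x : (Tors W p), σ • x - x ∈ kernelTors W A :=
    fun σ hσ x =>
      inertia_sub_mem_kernelAt W hΔ hp.out hss A hA hσ (nsmul_coe_eq_zero x)
  rcases eq_or_inf_eq_bot hΔ hbot htop hM with h | h
  · exact Or.inr fun σ hσ x => h ▸ hmove σ hσ x
  · refine Or.inl fun σ hσ x hx => sub_eq_zero.mp ((Submodule.mem_bot (ZMod p)).mp ?_)
    rw [← h]
    exact ⟨N.sub_mem (hN σ x hx) hx, hmove σ hσ x⟩

/-- At `ℓ ≠ p` inertia is trivial on a stable line and on its quotient. -/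
theorem inertia_le_of_ne (hΔ : W.Δ ≠ 0) (hss : W.IsSemistableModel) {ℓ : ℕ} (hℓ : ℓ.Prime)
    (hℓp : ℓ ≠ p) (A : ValuationSubring Qb) (hA : A.LiesOverPrime ℓ)
    {N : Submodule (ZMod p) (Tors W p)} (hN : IsGaloisStable ℚ N) (hbot : N ≠ ⊥) (htop : N ≠ ⊤) :
    A.inertiaSubgroupIn ℚ ≤ fixSub W N ∧ A.inertiaSubgroupIn ℚ ≤ fixQuot W N hN := by
  have hn : ¬ ℓ ∣ p := fun h => hℓp ((Nat.prime_dvd_prime_iff_eq hℓ hp.out).mp h)
  have hu : ∀ σ ∈ A.inertiaSubgroupIn ℚ, ∀ x : (Tors W p), σ • (σ • x - x) = σ • x - x := by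
    intro σ hσ x
    refine Subtype.ext ?_
    by_cases hd : (ℓ : ℤ) ∣ W.Δ
    · exact Mult.smul_sub_fixed_of_mult hℓ hA hΔ hd (hss ℓ hℓ hd) hn hσ hσ (nsmul_coe_eq_zero x)
    · exact smul_eq_of_mem_inertia W A hℓ hA hd hσ hn (nsmul_coe_eq_zero (σ • x - x))
  exact ⟨fun σ hσ => (mem_fixSub_and_fixQuot_of_unipotent hΔ hN hbot htop (hu σ hσ)).1,
    fun σ hσ => (mem_fixSub_and_fixQuot_of_unipotent hΔ hN hbot htop (hu σ hσ)).2⟩

/-- **A stable line of `E[p]` is fixed, or Galois is trivial on the quotient by it.** -/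
theorem trivial_sub_or_quot (hΔ : W.Δ ≠ 0) (hss : W.IsSemistableModel) (hp2 : p ≠ 2)
    {N : Submodule (ZMod p) (Tors W p)} (hN : IsGaloisStable ℚ N) (hbot : N ≠ ⊥) (htop : N ≠ ⊤) :
    (∀ (σ : Qb ≃ₐ[ℚ] Qb), ∀ x ∈ N, σ • x = x) ∨
      ∀ (σ : Qb ≃ₐ[ℚ] Qb) (x : (Tors W p)), σ • x - x ∈ N := by
  have := fixSub_normal (W := W) hN
  have := fixQuot_normal (W := W) hN
  obtain ⟨Ap, hAp⟩ :=
    Fermat.Agent.Galois.exists_valuationSubring_liesOverPrime (L := Qb) hp.out
  rcases inertia_dichotomy hΔ hp2 (hss p hp.out) Ap hAp hN hbot htop with h | h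
  · left
    have htopH : fixSub W N = ⊤ := by
      refine Fermat.Agent.Galois.eq_top_of_forall_exists_inertia_le _
        (isOpen_of_fixes_torsion_le hΔ hp.out.ne_zero fun σ hσ x _ => hσ x) fun ℓ hℓ => ?_
      by_cases hℓp : ℓ = p
      · exact ⟨Ap, hℓp ▸ hAp, h⟩
      · obtain ⟨A, hA⟩ := Fermat.Agent.Galois.exists_valuationSubring_liesOverPrime (L := Qb) hℓ
        exact ⟨A, hA, (inertia_le_of_ne hΔ hss hℓ hℓp A hA hN hbot htop).1⟩
    intro σ x hx
    exact mem_fixSub.mp (htopH ▸ Subgroup.mem_top σ) x hx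
  · right
    have htopH : fixQuot W N hN = ⊤ := by
      refine Fermat.Agent.Galois.eq_top_of_forall_exists_inertia_le _
        (isOpen_of_fixes_torsion_le hΔ hp.out.ne_zero fun σ hσ x => ?_) fun ℓ hℓ => ?_
      · rw [hσ x, sub_self]; exact N.zero_mem
      by_cases hℓp : ℓ = p
      · exact ⟨Ap, hℓp ▸ hAp, h⟩
      · obtain ⟨A, hA⟩ := Fermat.Agent.Galois.exists_valuationSubring_liesOverPrime (L := Qb) hℓ
        exact ⟨A, hA, (inertia_le_of_ne hΔ hss hℓ hℓp A hA hN hbot htop).2⟩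
    intro σ x
    exact mem_fixQuot.mp (htopH ▸ Subgroup.mem_top σ) x

end Fermat.Agent.EC.Reducible
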