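import Fermat.Agent.EC.Reducible.Character
import Fermat.Agent.EC.Mult.Component
import Fermat.Agent.EC.Mult.SmallResidue
import Fermat.Prelude.Def_FLTPrelim_CofixedLine

/-!
# Reducible representations have a cofixed line when `2` is multiplicative and `p ∤ ord₂ Δ`
-/

set_option autoImplicit false

noncomputable section

open WeierstrassCurve.Affine.Point
open WeierstrassCurve.Affine (Point)
open scoped WeierstrassCurve.Affine

namespace Fermat.Agent.EC.Reducible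

local notation "Qb" => AlgebraicClosure ℚ

/-- If the representation on `E[p]` is reducible, there is a stable submodule other than `⊥`, `⊤`. -/
theorem exists_stable_of_not_irreducible {W : WeierstrassCurve ℤ} {p : ℕ} [hp : Fact p.Prime]
    (hΔ : W.Δ ≠ 0)
    (hred : ¬ GaloisRepIsIrreducible (K := Qb) ℚ (W.map (Int.castRingHom ℚ)) p) :
    ∃ N : Submodule (ZMod p) (Tors W p), IsGaloisStable ℚ N ∧ N ≠ ⊥ ∧ N ≠ ⊤ := by
  have hnt : Nontrivial (Tors W p) :=
    Module.nontrivial_of_finrank_eq_succ (R := ZMod p) (finrank_torsion hΔ)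
  by_contra h
  refine hred ⟨hnt, fun N hN => ?_⟩
  by_contra hne
  rw [not_or] at hne
  exact h ⟨N, hN, hne.1, hne.2⟩

/-- **No rational point of order `p`** at a multiplicative `2` with `p ∤ ord₂ Δ`. -/
theorem eq_zero_of_fixed_of_two {W : WeierstrassCurve ℤ} {p : ℕ} [hp : Fact p.Prime]
    (hΔ : W.Δ ≠ 0) (h2 : (2 : ℤ) ∣ W.Δ) (h2c4 : ¬ (2 : ℤ) ∣ W.c₄) (hp5 : 5 ≤ p)
    (hpv : ¬ p ∣ padicValInt 2 W.Δ) {x : Tors W p}
    (hfix : ∀ σ : Qb ≃ₐ[ℚ] Qb, σ • x = x) : x = 0 := by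
  obtain ⟨A, hA⟩ :=
    Fermat.Agent.Galois.exists_valuationSubring_liesOverPrime (L := Qb) Nat.prime_two
  have hfix' : ∀ σ : Qb ≃ₐ[ℚ] Qb, σ • (x : ((W.map (Int.castRingHom ℚ))⁄Qb).Point) = x :=
    fun σ => congrArg Subtype.val (hfix σ)
  exact Subtype.ext (Mult.eq_zero_of_inZeroComponentAt_two hA h2c4 hp.out hp5
    (fun σ _ => hfix' σ)
    (Mult.inZeroComponentAt_of_inertia_fixed Nat.prime_two hA hΔ h2 h2c4 hp.out hpv
      (nsmul_coe_eq_zero x) fun σ _ => hfix' σ)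
    (nsmul_coe_eq_zero x))

/-- **Reducible implies a cofixed line.** -/
theorem hasGaloisStableCofixedLine_of_reducible {W : WeierstrassCurve ℤ} {p : ℕ}
    [hp : Fact p.Prime] (hΔ : W.Δ ≠ 0) (hss : W.IsSemistableModel) (h2 : (2 : ℤ) ∣ W.Δ)
    (hp5 : 5 ≤ p) (hpv : ¬ p ∣ padicValInt 2 W.Δ)
    (hred : ¬ GaloisRepIsIrreducible (K := Qb) ℚ (W.map (Int.castRingHom ℚ)) p) :
    HasGaloisStableCofixedLine (K := Qb) ℚ (W.map (Int.castRingHom ℚ)) p := by
  obtain ⟨N, hN, hbot, htop⟩ := exists_stable_of_not_irreducible hΔ hred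
  rcases trivial_sub_or_quot hΔ hss (by omega) hN hbot htop with h | h
  · obtain ⟨x, hx, hx0⟩ := (Submodule.ne_bot_iff N).mp hbot
    exact absurd (eq_zero_of_fixed_of_two hΔ h2 (hss 2 Nat.prime_two h2) hp5 hpv
      fun σ => h σ x hx) hx0
  · exact ⟨N, hN, hbot, htop, h⟩

end Fermat.Agent.EC.Reducible
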