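import Fermat.Agent.EC.DivPoly.MulFormula
import Fermat.Agent.Galois.Frobenius
import Fermat.Prelude.Def_FLTPrelim_GaloisRep
import Fermat.Prelude.Def_FLTPrelim_Ramification
import Mathlib.AlgebraicGeometry.EllipticCurve.DivisionPolynomial.Degree
import Mathlib.FieldTheory.Galois.Infinite

/-!
# A stable line forces some `p`-torsion to survive reduction at `p`

If all nonzero `p`-torsion points reduced to the origin, the product of the roots of `preΨ' p`
would have valuation at most `v(p)⁻¹`; the sub-product over the `x`-coordinates of a Galois stable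
line is rational and would lie strictly between `1` and `v(p)⁻¹`, which is impossible.
-/

set_option autoImplicit false

noncomputable section

open Polynomial WeierstrassCurve.Affine.Point
open WeierstrassCurve.Affine (Point)
open scoped WeierstrassCurve.Affine

namespace Fermat.Agent.EC.Reducible

local notation "Qb" => AlgebraicClosure ℚ

local instance : Algebra.IsAlgebraic ℚ Qb := AlgebraicClosure.isAlgebraic ℚ

local instance : IsAlgClosure ℚ Qb := ⟨inferInstance, inferInstance⟩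

local instance : IsGalois ℚ Qb := IsAlgClosure.isGalois ℚ Qb

/-- A valuation at a place over `p` takes no rational value strictly between `1` and `v(p)⁻¹`. -/
theorem not_one_lt_valuation_of_lt_inv (A : ValuationSubring Qb) {p : ℕ} (hp : p.Prime)
    (hA : A.LiesOverPrime p) (r : ℚ) (h1 : 1 < A.valuation (r : Qb)) :
    1 ≤ A.valuation (p : Qb) * A.valuation (r : Qb) := by
  have hle : ∀ m : ℤ, A.valuation (m : Qb) ≤ 1 :=
    fun m => (A.valuation_le_one_iff _).mpr (intCast_mem A m)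
  have hunit : ∀ m : ℤ, ¬ (p : ℤ) ∣ m → A.valuation (m : Qb) = 1 := fun m hm =>
    le_antisymm (hle m) (not_lt.mp fun h =>
      hm ((Fermat.Agent.Galois.intCast_mem_nonunits_iff A hp hA m).mp h))
  have hdenpos : 0 < A.valuation ((r.den : ℤ) : Qb) :=
    zero_lt_iff.mpr (A.valuation.ne_zero_iff.mpr (Int.cast_ne_zero.mpr (by simp)))
  have hr : (r : Qb) = ((r.num : ℤ) : Qb) / ((r.den : ℤ) : Qb) := by
    rw [Int.cast_natCast]; exact Rat.cast_def r
  rw [hr, map_div₀, one_lt_div₀ hdenpos] at h1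
  have hdvd : (p : ℤ) ∣ (r.den : ℤ) := by
    by_contra h
    rw [hunit _ h] at h1
    exact h1.not_ge (hle _)
  obtain ⟨d, hd⟩ := hdvd
  have hnum : ¬ (p : ℤ) ∣ r.num := fun h => by
    have h1' : p ∣ r.num.natAbs := Int.natCast_dvd.mp h
    have h2' : p ∣ r.den := Int.natCast_dvd_natCast.mp ⟨d, hd⟩
    exact Nat.not_coprime_of_dvd_of_dvd hp.one_lt h1' h2' r.reduced
  rw [hr, map_div₀, hunit _ hnum, hd, Int.cast_mul, map_mul, Int.cast_natCast]
  rw [hd, Int.cast_mul, map_mul, Int.cast_natCast] at hdenpos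
  have hd0 : 0 < A.valuation ((d : ℤ) : Qb) :=
    (pos_of_mul_pos_right hdenpos zero_le)
  have hp0 : 0 < A.valuation (p : Qb) := pos_of_mul_pos_left hdenpos zero_le
  rw [← mul_div_assoc, mul_one, ← div_div, div_self hp0.ne', one_le_div₀ hd0]
  exact hle d

/-- The `x`-coordinate of a point, with the origin sent to `0`. -/
def xCoord {F : Type*} [Field F] {V : WeierstrassCurve.Affine F} : V.Point → F
  | .zero => 0
  | .some x _ _ => x

theorem xCoord_smul {W : WeierstrassCurve ℤ} (σ : Qb ≃ₐ[ℚ] Qb)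
    (P : ((W.map (Int.castRingHom ℚ))⁄Qb).Point) : xCoord (σ • P) = σ (xCoord P) := by
  obtain _ | ⟨x, y, h⟩ := P
  · exact (map_zero σ).symm
  · rfl

/-- **Some `p`-torsion point has integral abscissa at `p`** if `E[p]` has a stable line. -/
theorem exists_torsion_mem_of_stable_line (W : WeierstrassCurve ℤ) (hΔ : W.Δ ≠ 0) {p : ℕ}
    (hp : p.Prime) (hp2 : p ≠ 2) (A : ValuationSubring Qb) (hA : A.LiesOverPrime p)
    (N : Submodule (ZMod p)
      (Submodule.torsionBy ℤ ((W.map (Int.castRingHom ℚ))⁄Qb).Point p))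
    (hN : IsGaloisStable ℚ N) (hbot : N ≠ ⊥) (htop : N ≠ ⊤) :
    ∃ (x y : Qb) (h : ((W.map (Int.castRingHom ℚ))⁄Qb).toAffine.Nonsingular x y),
      p • (Point.some x y h : ((W.map (Int.castRingHom ℚ))⁄Qb).Point) = 0 ∧ x ∈ A := by
  classical
  by_contra hout
  simp only [not_exists, not_and] at hout
  let V : WeierstrassCurve.Affine Qb := ((W.map (Int.castRingHom ℚ))⁄Qb).toAffine
  have hVmap : (V : WeierstrassCurve Qb) = W.map (Int.castRingHom Qb) := by
    ext <;> simp [V]
  have hVΔ : V.Δ ≠ 0 := by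
    rw [hVmap, WeierstrassCurve.map_Δ, eq_intCast]
    exact Int.cast_ne_zero.mpr hΔ
  have hp0 : ((p : ℕ) : ℤ) ≠ 0 := Nat.cast_ne_zero.mpr hp.ne_zero
  have hodd : ¬ Even p := Nat.not_even_iff_odd.mpr (hp.odd_of_ne_two hp2)
  set f : Qb[X] := (W.preΨ' p).map (Int.castRingHom Qb) with hf
  have hVf : V.preΨ' p = f := by rw [hVmap, WeierstrassCurve.map_preΨ']
  have hf0 : f ≠ 0 := by
    rw [hf, Ne, Polynomial.map_eq_zero_iff Int.cast_injective]
    exact W.preΨ'_ne_zero hp0
  have hlead : f.leadingCoeff = (p : Qb) := by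
    rw [hf, Polynomial.leadingCoeff_map_of_injective Int.cast_injective,
      W.leadingCoeff_preΨ' hp0, if_neg hodd]
    simp
  -- every root gives a point of order `p`, hence is not integral
  have hroot : ∀ x ∈ f.roots, x ∉ A := by
    intro x hx
    obtain ⟨y, hy⟩ := IsAlgClosed.exists_root
      (C (1 : Qb) * X ^ 2 + C (V.a₁ * x + V.a₃) * X +
        C (-(x ^ 3 + V.a₂ * x ^ 2 + V.a₄ * x + V.a₆)))
      (by rw [degree_quadratic one_ne_zero]; decide)
    have heq : V.Equation x y := by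
      rw [WeierstrassCurve.Affine.equation_iff]
      simp only [IsRoot, eval_add, eval_mul, eval_pow, eval_C, eval_X] at hy
      linear_combination hy
    have hns : V.Nonsingular x y :=
      (V.equation_iff_nonsingular_of_Δ_ne_zero hVΔ).mp heq
    refine hout x y hns ((nsmul_some_eq_zero_iff hns p).mpr ?_)
    rw [V.ΨSq_ofNat, if_neg hodd, mul_one, eval_pow, hVf, (mem_roots'.mp hx).2, zero_pow two_ne_zero]
  have hone : ∀ x ∈ f.roots, 1 < A.valuation x := fun x hx => by
    rw [← not_le, A.valuation_le_one_iff]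
    exact hroot x hx
  -- the product of all roots
  have hprod : A.valuation (p : Qb) * (f.roots.map A.valuation).prod ≤ 1 := by
    have h := congrArg A.valuation (IsAlgClosed.splits f).coeff_zero_eq_leadingCoeff_mul_prod_roots
    rw [hlead, map_mul, map_mul, map_pow, A.valuation.map_neg, map_one, one_pow, one_mul,
      map_multiset_prod] at h
    rw [← h, hf, coeff_map, eq_intCast]
    exact (A.valuation_le_one_iff _).mpr (intCast_mem A _)
  -- the abscissae of the stable line
  have : Fact p.Prime := ⟨hp⟩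
  let T := Submodule.torsionBy ℤ ((W.map (Int.castRingHom ℚ))⁄Qb).Point p
  have hmemroot : ∀ P : T, P ≠ 0 → xCoord (P : ((W.map (Int.castRingHom ℚ))⁄Qb).Point) ∈ f.roots := by
    rintro ⟨P, hP⟩ hP0
    obtain _ | ⟨x, y, h⟩ := P
    · exact absurd rfl hP0
    have hP' : p • (Point.some x y h : ((W.map (Int.castRingHom ℚ))⁄Qb).Point) = 0 := by
      rw [← natCast_zsmul]; exact (Submodule.mem_torsionBy_iff _ _).1 hP
    have h0 := (nsmul_some_eq_zero_iff h p).mp hP'
    rw [V.ΨSq_ofNat, if_neg hodd, mul_one, eval_pow, pow_eq_zero_iff two_ne_zero, hVf] at h0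
    exact mem_roots'.mpr ⟨hf0, h0⟩
  let S : Finset Qb := f.roots.toFinset.filter
    (fun x => ∃ P ∈ N, P ≠ 0 ∧ xCoord ((P : T) : ((W.map (Int.castRingHom ℚ))⁄Qb).Point) = x)
  have hS : ∀ x, x ∈ S ↔
      ∃ P ∈ N, P ≠ 0 ∧ xCoord ((P : T) : ((W.map (Int.castRingHom ℚ))⁄Qb).Point) = x := by
    intro x
    rw [Finset.mem_filter, and_iff_right_iff_imp]
    rintro ⟨P, -, hP0, rfl⟩
    exact Multiset.mem_toFinset.mpr (hmemroot P hP0)
  obtain ⟨P₀, hP₀, hP₀0⟩ := (Submodule.ne_bot_iff N).mp hbot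
  obtain ⟨Q₀, hQ₀⟩ : ∃ Q : T, Q ∉ N := by
    by_contra h
    simp only [not_exists, not_not] at h
    exact htop (Submodule.eq_top_iff'.mpr h)
  have hQ₀0 : Q₀ ≠ 0 := fun h => hQ₀ (h ▸ N.zero_mem)
  have hQS : xCoord (Q₀ : ((W.map (Int.castRingHom ℚ))⁄Qb).Point) ∉ S := by
    rw [hS]
    rintro ⟨⟨P, hPT⟩, hPN, hP0, hPQ⟩
    obtain ⟨Q, hQT⟩ := Q₀
    obtain _ | ⟨x, y, h⟩ := P
    · exact hP0 rfl
    obtain _ | ⟨x', y', h'⟩ := Q
    · exact hQ₀0 rfl
    simp only [xCoord] at hPQ
    subst hPQ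
    rcases WeierstrassCurve.Affine.Y_eq_of_X_eq h'.left h.left rfl with rfl | hy
    · exact hQ₀ hPN
    · have e : (⟨.some x y' h', hQT⟩ : T) = -⟨.some x y h, hPT⟩ := Subtype.ext (by
        subst hy
        exact (WeierstrassCurve.Affine.Point.neg_some h).symm)
      exact hQ₀ (e ▸ N.neg_mem hPN)
  -- compare the two products
  have hSpos : 1 < A.valuation (∏ x ∈ S, x) := by
    have hx₀ : xCoord (P₀ : ((W.map (Int.castRingHom ℚ))⁄Qb).Point) ∈ S :=
      (hS _).mpr ⟨P₀, hP₀, hP₀0, rfl⟩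
    rw [map_prod, ← Finset.mul_prod_erase _ _ hx₀]
    refine lt_of_lt_of_le (hone _ (hmemroot P₀ hP₀0)) (le_mul_of_one_le_right zero_le ?_)
    refine Finset.one_le_prod' fun x hx => (hone x ?_).le
    exact Multiset.mem_toFinset.mp (Finset.mem_filter.mp (Finset.mem_of_mem_erase hx)).1
  have hSlt : A.valuation (p : Qb) * A.valuation (∏ x ∈ S, x) < 1 := by
    refine lt_of_lt_of_le (mul_lt_mul_of_pos_left ?_ ?_) hprod
    · have h1 : A.valuation (∏ x ∈ S, x) <
          ∏ x ∈ insert (xCoord (Q₀ : ((W.map (Int.castRingHom ℚ))⁄Qb).Point)) S, A.valuation x := by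
        rw [map_prod, Finset.prod_insert hQS]
        refine lt_mul_of_one_lt_left ?_ (hone _ (hmemroot Q₀ hQ₀0))
        rw [← map_prod]; exact lt_trans zero_lt_one hSpos
      refine h1.trans_le (le_trans (Finset.prod_le_prod_of_subset_of_one_le'
        (t := f.roots.toFinset) ?_ fun x hx _ => (hone x (Multiset.mem_toFinset.mp hx)).le) ?_)
      · exact Finset.insert_subset (Multiset.mem_toFinset.mpr (hmemroot Q₀ hQ₀0))
          (Finset.filter_subset _ _)
      · rw [Finset.prod_multiset_map_count]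
        refine Finset.prod_le_prod' fun x hx => le_self_pow (hone x
          (Multiset.mem_toFinset.mp hx)).le ?_
        exact (Multiset.count_pos.mpr (Multiset.mem_toFinset.mp hx)).ne'
    · exact zero_lt_iff.mpr (A.valuation.ne_zero_iff.mpr (Nat.cast_ne_zero.mpr hp.ne_zero))
  -- the sub-product is rational
  have hfixed : ∀ σ : Qb ≃ₐ[ℚ] Qb, σ (∏ x ∈ S, x) = ∏ x ∈ S, x := by
    intro σ
    rw [map_prod]
    refine Finset.prod_nbij σ (fun x hx => ?_) σ.injective.injOn ?_ (fun x _ => rfl)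
    · obtain ⟨P, hPN, hP0, rfl⟩ := (hS x).mp hx
      exact (hS _).mpr ⟨σ • P, hN σ P hPN, fun h => hP0 (by
        simpa using congrArg (σ⁻¹ • ·) h), xCoord_smul σ _⟩
    · intro x hx
      obtain ⟨P, hPN, hP0, rfl⟩ := (hS x).mp hx
      refine ⟨σ⁻¹ (xCoord (P : ((W.map (Int.castRingHom ℚ))⁄Qb).Point)), ?_, ?_⟩
      · exact (hS _).mpr ⟨σ⁻¹ • P, hN _ P hPN, fun h => hP0 (by
          simpa using congrArg (σ • ·) h), xCoord_smul σ⁻¹ _⟩
      · exact σ.apply_symm_apply _
  obtain ⟨r, hr⟩ := (InfiniteGalois.mem_range_algebraMap_iff_fixed _).mpr hfixed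
  rw [← hr, eq_ratCast] at hSpos hSlt
  exact (not_one_lt_valuation_of_lt_inv A hp hA r hSpos).not_gt hSlt

end Fermat.Agent.EC.Reducible
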