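import Fermat.Agent.EC.Red.Qbar

/-!
# The kernel of reduction of an integral model at a place of `ℚ̄`
-/

set_option autoImplicit false

noncomputable section

open WeierstrassCurve.Affine (Point)
open scoped WeierstrassCurve.Affine

namespace Fermat.Agent.EC.Reducible

variable (W : WeierstrassCurve ℤ) (A : ValuationSubring (AlgebraicClosure ℚ))

/-- The points of `W(ℚ̄)` reducing to the origin at `A`. -/
def kernelAt : AddSubgroup ((W.map (Int.castRingHom ℚ))⁄(AlgebraicClosure ℚ)).Point :=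
  (qbarModel W A).redE0.ker.map (qbarModel W A).E0.subtype

theorem mem_kernelAt_iff (P : ((W.map (Int.castRingHom ℚ))⁄(AlgebraicClosure ℚ)).Point) :
    P ∈ kernelAt W A ↔ P = 0 ∨ ∃ (x y : AlgebraicClosure ℚ)
      (h : ((W.map (Int.castRingHom ℚ))⁄(AlgebraicClosure ℚ)).toAffine.Nonsingular x y),
      P = .some x y h ∧ x ∉ A := by
  constructor
  · rintro ⟨⟨Q, hQ⟩, hker, rfl⟩
    exact ((qbarModel W A).red_eq_zero_iff hQ).mp hker
  · intro h
    have hE0 : (qbarModel W A).InE0 P := by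
      rcases h with rfl | ⟨x, y, h, rfl, hx⟩
      · exact (qbarModel W A).inE0_zero
      · exact (qbarModel W A).inE0_some_of_not_mem h hx
    exact ⟨⟨P, hE0⟩, ((qbarModel W A).red_eq_zero_iff hE0).mpr h, rfl⟩

theorem some_mem_kernelAt_iff {x y : AlgebraicClosure ℚ}
    (h : ((W.map (Int.castRingHom ℚ))⁄(AlgebraicClosure ℚ)).toAffine.Nonsingular x y) :
    (Point.some x y h : ((W.map (Int.castRingHom ℚ))⁄(AlgebraicClosure ℚ)).Point) ∈ kernelAt W A ↔
      x ∉ A := by
  rw [mem_kernelAt_iff]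
  refine ⟨?_, fun hx => Or.inr ⟨x, y, h, rfl, hx⟩⟩
  rintro (h0 | ⟨x', y', h', e, hx⟩)
  · exact absurd h0 (Point.some_ne_zero _)
  · cases e; exact hx

end Fermat.Agent.EC.Reducible
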